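import Mathlib

/-!
# T-CFT module ST (helper7), part A: a power sum over a finite field

`∑ x : F, x ^ m * (1 - x) ^ m = 0` in a finite field `F` with `2 * m < #F - 1`.
-/

namespace Fermat.Agent.H7ST

theorem h7st_sum_pow_mul_one_sub_pow {F : Type*} [Field F] [Fintype F] (m : ℕ)
    (hm : 2 * m < Fintype.card F - 1) : ∑ x : F, x ^ m * (1 - x) ^ m = 0 := by
  have h1 : ∀ x : F, x ^ m * (1 - x) ^ m =
      ∑ k ∈ Finset.range (m + 1), ((-1 : F) ^ k * (m.choose k : F)) * x ^ (m + k) := by
    intro x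
    have : (1 - x) = (-x) + 1 := by ring
    rw [this, add_pow, Finset.mul_sum]
    refine Finset.sum_congr rfl fun k _ => ?_
    rw [one_pow, mul_one, neg_pow, pow_add]
    ring
  simp_rw [h1]
  rw [Finset.sum_comm]
  refine Finset.sum_eq_zero fun k hk => ?_
  rw [← Finset.mul_sum]
  rw [FiniteField.sum_pow_lt_card_sub_one]
  · exact mul_zero _
  · have := Finset.mem_range.mp hk
    omega

end Fermat.Agent.H7ST
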