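import Mathlib
import Fermat.Agent.CFT.ST.FiniteSum

/-!
# T-CFT module ST (helper7), part B: the `p`-th power residue character

`R` a commutative ring, `π : R →+* F` a ring homomorphism to a finite field, `z : R` with
`z ^ p = 1` whose image in `F` is a primitive `p`-th root of unity.  We construct a
multiplicative character `χ : F → R` with values in `{0} ∪ {z ^ j}` lifting `x ↦ x ^ ((#F - 1) / p)`.
-/

namespace Fermat.Agent.H7ST

variable {F : Type*} [Field F] [Fintype F]
variable {R : Type*} [CommRing R]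

theorem h7st_dvd_card_sub_one (π : R →+* F) {p : ℕ} [hp : Fact p.Prime] {z : R}
    (hzF : IsPrimitiveRoot (π z) p) : p ∣ Fintype.card F - 1 := by
  apply hzF.dvd_of_pow_eq_one
  apply FiniteField.pow_card_sub_one_eq_one
  intro h0
  have h1 := hzF.pow_eq_one
  rw [h0, zero_pow hp.out.ne_zero] at h1
  exact zero_ne_one h1

theorem h7st_card_sub_one_pos : 0 < Fintype.card F - 1 := by
  have := Fintype.one_lt_card (α := F)
  omega

/-- The power residue character. -/
theorem h7st_exists_char (π : R →+* F) {p : ℕ} [hp : Fact p.Prime] {z : R} (hz : z ^ p = 1)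
    (hzF : IsPrimitiveRoot (π z) p) :
    ∃ χ : MulChar F R,
      (∀ x : F, π (χ x) = x ^ ((Fintype.card F - 1) / p)) ∧
      (∀ x : F, χ x = 0 ∨ ∃ j : ℕ, χ x = z ^ j) ∧
      χ ≠ 1 ∧ (p ≠ 2 → χ * χ ≠ 1) := by
  classical
  have hpdvd := h7st_dvd_card_sub_one π hzF
  obtain ⟨k, hk⟩ := hpdvd
  have hq1 : 0 < Fintype.card F - 1 := h7st_card_sub_one_pos
  have hp0 : 0 < p := hp.out.pos
  have hp2 : 2 ≤ p := hp.out.two_le
  have hk0 : 0 < k := by
    rcases Nat.eq_zero_or_pos k with h | h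
    · rw [h, mul_zero] at hk; omega
    · exact h
  have hkdiv : (Fintype.card F - 1) / p = k := by
    rw [hk, Nat.mul_div_cancel_left k hp0]
  rw [hkdiv]
  -- generator of the unit group
  obtain ⟨g, hg⟩ := IsCyclic.exists_generator (α := Fˣ)
  have hordg : orderOf g = Fintype.card F - 1 := by
    rw [orderOf_eq_card_of_forall_mem_zpowers hg, Nat.card_eq_fintype_card, Fintype.card_units]
  have hgk : ((g : F) ^ k) ^ p = 1 := by
    rw [← pow_mul, mul_comm, ← hk]
    exact FiniteField.pow_card_sub_one_eq_one _ g.ne_zero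
  obtain ⟨i, -, hi⟩ := hzF.eq_pow_of_pow_eq_one hgk
  -- the root of unity in `R`
  let zu : Rˣ := Units.ofPowEqOne z p hz hp.out.ne_zero
  have hzu : (zu : R) = z := rfl
  have hzup : zu ^ p = 1 := Units.ext (by simp [hzu, hz])
  have hw : zu ^ i ∈ rootsOfUnity (Fintype.card Fˣ) R := by
    rw [mem_rootsOfUnity, Fintype.card_units, hk, ← pow_mul, mul_comm i, mul_assoc, pow_mul, hzup,
      one_pow]
  set χ : MulChar F R := MulChar.ofRootOfUnity hw hg with hχ
  have hχg : χ (g : F) = z ^ i := by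
    rw [hχ, MulChar.ofRootOfUnity_spec]
    simp [hzu]
  have hunit : ∀ u : Fˣ, ∃ n : ℕ, u = g ^ n := by
    intro u
    have h1 := hg u
    rw [← mem_powers_iff_mem_zpowers] at h1
    obtain ⟨n, hn⟩ := h1
    exact ⟨n, hn.symm⟩
  have hχu : ∀ u : Fˣ, ∃ n : ℕ, u = g ^ n ∧ χ (u : F) = z ^ (i * n) := by
    intro u
    obtain ⟨n, hn⟩ := hunit u
    refine ⟨n, hn, ?_⟩
    rw [hn, Units.val_pow_eq_pow_val, map_pow, hχg, pow_mul]
  refine ⟨χ, ?_, ?_, ?_, ?_⟩
  · intro x
    by_cases hx : x = 0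
    · subst hx
      rw [MulChar.map_zero, map_zero, zero_pow hk0.ne']
    · obtain ⟨n, hn, hχn⟩ := hχu (Units.mk0 x hx)
      rw [Units.val_mk0] at hχn
      have hx' : x = (g : F) ^ n := by
        have := congrArg (fun u : Fˣ => (u : F)) hn
        simpa using this
      rw [hχn, map_pow, pow_mul, hi, hx', ← pow_mul, ← pow_mul, mul_comm]
  · intro x
    by_cases hx : x = 0
    · left
      subst hx
      exact MulChar.map_zero χ
    · right
      obtain ⟨n, -, hχn⟩ := hχu (Units.mk0 x hx)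
      rw [Units.val_mk0] at hχn
      exact ⟨_, hχn⟩
  · intro h1
    have h2 : χ (g : F) = 1 := by rw [h1, MulChar.one_apply g.isUnit]
    rw [hχg] at h2
    have h3 : (g : F) ^ k = 1 := by
      rw [← hi, ← map_pow, h2, map_one]
    have h4 : g ^ k = 1 := Units.ext (by simpa using h3)
    have h5 := orderOf_dvd_of_pow_eq_one h4
    rw [hordg, hk] at h5
    have h6 := Nat.le_of_dvd hk0 h5
    nlinarith
  · intro hp2' h1
    have h2 : (χ * χ) (g : F) = 1 := by rw [h1, MulChar.one_apply g.isUnit]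
    rw [MulChar.mul_apply, hχg, ← pow_add] at h2
    have h3 : (g : F) ^ (k + k) = 1 := by
      rw [pow_add, ← hi, ← map_pow, ← map_mul, ← pow_add, h2, map_one]
    have h4 : g ^ (k + k) = 1 := Units.ext (by simpa using h3)
    have h5 := orderOf_dvd_of_pow_eq_one h4
    rw [hordg, hk, ← two_mul, mul_comm 2 k, mul_comm p k] at h5
    have h6 : p ∣ 2 := (Nat.mul_dvd_mul_iff_left hk0).mp h5
    have h7 := (Nat.prime_dvd_prime_iff_eq hp.out Nat.prime_two).mp h6
    exact hp2' h7

/-- The Galois conjugates `σ_c (J(χ, χ))`, `0 < c < p / 2`, of the Jacobi sum lie in the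
kernel of `π`. -/
theorem h7st_sigma_jacobiSum_mem (π : R →+* F) {p : ℕ} [hp : Fact p.Prime] {z : R}
    (hzF : IsPrimitiveRoot (π z) p) (χ : MulChar F R)
    (hχ1 : ∀ x : F, π (χ x) = x ^ ((Fintype.card F - 1) / p))
    (hχ2 : ∀ x : F, χ x = 0 ∨ ∃ j : ℕ, χ x = z ^ j)
    (σ : R →+* R) (c : ℕ) (hσ : σ z = z ^ c) (hc : 0 < c) (h2c : 2 * c < p) :
    π (σ (jacobiSum χ χ)) = 0 := by
  have hpdvd := h7st_dvd_card_sub_one π hzF
  obtain ⟨k, hk⟩ := hpdvd
  have hq1 : 0 < Fintype.card F - 1 := h7st_card_sub_one_pos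
  have hp0 : 0 < p := hp.out.pos
  have hk0 : 0 < k := by
    rcases Nat.eq_zero_or_pos k with h | h
    · rw [h, mul_zero] at hk; omega
    · exact h
  have hkdiv : (Fintype.card F - 1) / p = k := by
    rw [hk, Nat.mul_div_cancel_left k hp0]
  rw [hkdiv] at hχ1
  have hσχ : ∀ x : F, σ (χ x) = χ x ^ c := by
    intro x
    rcases hχ2 x with h | ⟨j, hj⟩
    · rw [h, map_zero, zero_pow hc.ne']
    · rw [hj, map_pow, hσ, ← pow_mul, ← pow_mul, mul_comm]
  have h1 : π (σ (jacobiSum χ χ)) = ∑ x : F, x ^ (k * c) * (1 - x) ^ (k * c) := by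
    rw [jacobiSum, map_sum, map_sum]
    refine Finset.sum_congr rfl fun x _ => ?_
    rw [map_mul, map_mul, hσχ, hσχ, map_pow, map_pow, hχ1, hχ1, ← pow_mul, ← pow_mul]
  rw [h1]
  apply h7st_sum_pow_mul_one_sub_pow
  rw [hk]
  nlinarith

end Fermat.Agent.H7ST
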