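import Mathlib
import Fermat.Agent.CFT.ST.Char

/-!
# T-CFT module ST (helper7), part C: primes of prime norm in the `p`-th cyclotomic field
-/

open NumberField

namespace Fermat.Agent.H7ST

variable {p : ℕ} [hp : Fact p.Prime] {K : Type} [Field K] [NumberField K]
  [IsCyclotomicExtension {p} ℚ K]

omit hp [IsCyclotomicExtension {p} ℚ K] in
theorem h7st_ne_bot {P : Ideal (𝓞 K)} (hq : (Ideal.absNorm P).Prime) : P ≠ ⊥ := by
  rintro rfl
  rw [Ideal.absNorm_bot] at hq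
  exact Nat.not_prime_zero hq

omit hp [IsCyclotomicExtension {p} ℚ K] in
theorem h7st_isMaximal {P : Ideal (𝓞 K)} (hP : P.IsPrime) (hq : (Ideal.absNorm P).Prime) :
    P.IsMaximal :=
  hP.isMaximal (h7st_ne_bot hq)

omit [IsCyclotomicExtension {p} ℚ K] in
/-- `p ∉ P` when the norm of `P` is a prime `≠ p`. -/
theorem h7st_p_notMem {P : Ideal (𝓞 K)} (hP : P.IsPrime) (hq : (Ideal.absNorm P).Prime)
    (hqp : Ideal.absNorm P ≠ p) : (p : 𝓞 K) ∉ P := by
  intro h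
  have h1 : ((Ideal.absNorm P : ℕ) : 𝓞 K) ∈ P := Ideal.absNorm_mem P
  have hcop : Nat.Coprime p (Ideal.absNorm P) :=
    (Nat.coprime_primes hp.out hq).mpr (Ne.symm hqp)
  have h2 : IsCoprime (p : ℤ) (Ideal.absNorm P : ℤ) := Nat.isCoprime_iff_coprime.mpr hcop
  obtain ⟨a, b, hab⟩ := h2
  have h3 : ((a * p + b * (Ideal.absNorm P : ℤ) : ℤ) : 𝓞 K) ∈ P := by
    push_cast
    exact P.add_mem (P.mul_mem_left _ h) (P.mul_mem_left _ h1)
  rw [hab] at h3
  apply hP.ne_top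
  rw [Ideal.eq_top_iff_one]
  simpa using h3

omit [IsCyclotomicExtension {p} ℚ K] in
/-- `ζ - 1 ∉ P`. -/
theorem h7st_zeta_sub_one_notMem {P : Ideal (𝓞 K)} (hP : P.IsPrime)
    (hq : (Ideal.absNorm P).Prime) (hqp : Ideal.absNorm P ≠ p) {ζ : K}
    (hζ : IsPrimitiveRoot ζ p) : hζ.toInteger - 1 ∉ P := by
  intro h
  apply h7st_p_notMem hP hq hqp
  have h1 := IsCyclotomicExtension.Rat.associated_zeta_sub_one_pow_prime p hζ
  have h2 : (hζ.toInteger - 1) ^ (p - 1) ∈ P :=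
    P.pow_mem_of_mem h _ (Nat.sub_pos_of_lt hp.out.one_lt)
  obtain ⟨u, hu⟩ := h1
  rw [← hu]
  exact P.mul_mem_right _ h2

omit [IsCyclotomicExtension {p} ℚ K] in
/-- The image of `ζ` in the residue field is a primitive `p`-th root of unity. -/
theorem h7st_isPrimitiveRoot_mk {P : Ideal (𝓞 K)} (hP : P.IsPrime)
    (hq : (Ideal.absNorm P).Prime) (hqp : Ideal.absNorm P ≠ p) {ζ : K}
    (hζ : IsPrimitiveRoot ζ p) :
    IsPrimitiveRoot (Ideal.Quotient.mk P hζ.toInteger) p := by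
  have h1 : (Ideal.Quotient.mk P hζ.toInteger) ^ p = 1 := by
    rw [← map_pow, hζ.toInteger_isPrimitiveRoot.pow_eq_one, map_one]
  have h2 : Ideal.Quotient.mk P hζ.toInteger ≠ 1 := by
    intro h
    apply h7st_zeta_sub_one_notMem hP hq hqp hζ
    rw [← Ideal.Quotient.eq_zero_iff_mem, map_sub, h, map_one, sub_self]
  have h3 := orderOf_eq_prime h1 h2
  have h4 := IsPrimitiveRoot.orderOf (Ideal.Quotient.mk P hζ.toInteger)
  rwa [h3] at h4

omit hp [IsCyclotomicExtension {p} ℚ K] in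
/-- Every element of `𝓞 K` is congruent to a rational integer modulo a prime of prime norm. -/
theorem h7st_exists_int {P : Ideal (𝓞 K)} (hq : (Ideal.absNorm P).Prime) (x : 𝓞 K) :
    ∃ n : ℤ, x - (n : 𝓞 K) ∈ P := by
  have : Fact (Ideal.absNorm P).Prime := ⟨hq⟩
  have hcard : Nat.card (𝓞 K ⧸ P) = Ideal.absNorm P := by
    rw [Ideal.absNorm_apply, Submodule.cardQuot_apply]
  have hP1 : P ≠ ⊤ := by
    rintro rfl
    rw [Ideal.absNorm_top] at hq
    exact Nat.not_prime_one hq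
  have h1 : (1 : 𝓞 K ⧸ P) ≠ 0 := by
    intro h
    apply hP1
    rw [Ideal.eq_top_iff_one, ← Ideal.Quotient.eq_zero_iff_mem, map_one, h]
  have h3 : Ideal.Quotient.mk P x ∈ AddSubgroup.zmultiples (1 : 𝓞 K ⧸ P) :=
    mem_zmultiples_of_prime_card hcard h1
  obtain ⟨n, hn⟩ := AddSubgroup.mem_zmultiples_iff.mp h3
  refine ⟨n, ?_⟩
  rw [← Ideal.Quotient.eq_zero_iff_mem, map_sub, ← hn]
  simp

end Fermat.Agent.H7ST
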