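import Mathlib
import Fermat.Agent.CFT.ST.Prime

/-!
# T-CFT module ST (helper7), part D: the norm of the Jacobi sum

For a character `χ : F → 𝓞 K` of a finite field with values in `{0} ∪ μ_p` such that `χ` and
`χ ^ 2` are nontrivial, the ideal generated by `J(χ, χ)` has absolute norm `#F ^ ((p - 1) / 2)`.
-/

open NumberField Polynomial

namespace Fermat.Agent.H7ST

variable {p : ℕ} [hp : Fact p.Prime] {K : Type} [Field K] [NumberField K]
  [IsCyclotomicExtension {p} ℚ K]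

/-- The automorphism `ζ ↦ ζ⁻¹` ("complex conjugation"). -/
theorem h7st_exists_conj {ζ : K} (hζ : IsPrimitiveRoot ζ p) :
    ∃ τ : K ≃ₐ[ℚ] K, τ ζ = ζ⁻¹ := by
  have hirr : Irreducible (cyclotomic p ℚ) := cyclotomic.irreducible_rat hp.out.pos
  have hζi : IsPrimitiveRoot ζ⁻¹ p := hζ.inv
  have hmin : minpoly ℚ (hζ.powerBasis ℚ).gen = minpoly ℚ (hζi.powerBasis ℚ).gen := by
    rw [IsPrimitiveRoot.powerBasis_gen, IsPrimitiveRoot.powerBasis_gen,
      ← hζ.minpoly_eq_cyclotomic_of_irreducible hirr,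
      ← hζi.minpoly_eq_cyclotomic_of_irreducible hirr]
  refine ⟨(hζ.powerBasis ℚ).equivOfMinpoly (hζi.powerBasis ℚ) hmin, ?_⟩
  have := (hζ.powerBasis ℚ).equivOfMinpoly_gen (hζi.powerBasis ℚ) hmin
  rwa [IsPrimitiveRoot.powerBasis_gen, IsPrimitiveRoot.powerBasis_gen] at this

theorem h7st_finrank : Module.finrank ℚ K = p - 1 := by
  rw [IsCyclotomicExtension.finrank K (cyclotomic.irreducible_rat hp.out.pos),
    Nat.totient_prime hp.out]

/-- The norm of the Jacobi sum. -/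
theorem h7st_absNorm_jacobiSum {F : Type*} [Field F] [Fintype F] (hp2 : p ≠ 2) {ζ : K}
    (hζ : IsPrimitiveRoot ζ p) (χ : MulChar F (𝓞 K))
    (hχ2 : ∀ x : F, χ x = 0 ∨ ∃ j : ℕ, χ x = hζ.toInteger ^ j)
    (hχ1 : χ ≠ 1) (hχχ : χ * χ ≠ 1) :
    Ideal.absNorm (Ideal.span {jacobiSum χ χ}) = Fintype.card F ^ ((p - 1) / 2) := by
  classical
  obtain ⟨τ, hτ⟩ := h7st_exists_conj (K := K) hζ
  have hinj : Function.Injective (algebraMap (𝓞 K) K) := RingOfIntegers.coe_injective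
  set χK : MulChar F K := χ.ringHomComp (algebraMap (𝓞 K) K) with hχK
  have hχK1 : χK ≠ 1 := (MulChar.ringHomComp_ne_one_iff hinj).mpr hχ1
  have hχKχK : χK * χK ≠ 1 := by
    rw [hχK, ← MulChar.ringHomComp_mul]
    exact (MulChar.ringHomComp_ne_one_iff hinj).mpr hχχ
  have hchar : ringChar K ≠ ringChar F := by
    rw [ringChar.eq_zero]
    exact (CharP.char_ne_zero_of_finite F (ringChar F)).symm
  have h1 := jacobiSum_mul_jacobiSum_inv hchar hχK1 hχK1 hχKχK
  have hJK : jacobiSum χK χK = algebraMap (𝓞 K) K (jacobiSum χ χ) := by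
    rw [hχK, jacobiSum_ringHomComp]
  -- the conjugate
  have hτχ : ∀ x : F, χK⁻¹ x = τ (χK x) := by
    intro x
    rw [MulChar.inv_apply_eq_inv', hχK, MulChar.ringHomComp_apply]
    rcases hχ2 x with h | ⟨j, hj⟩
    · rw [h]; simp
    · rw [hj, map_pow, map_pow]
      have : algebraMap (𝓞 K) K hζ.toInteger = ζ := rfl
      rw [this, hτ, inv_pow]
  have hJinv : jacobiSum χK⁻¹ χK⁻¹ = τ (jacobiSum χK χK) := by
    rw [jacobiSum, jacobiSum, map_sum]
    refine Finset.sum_congr rfl fun x _ => ?_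
    rw [map_mul, hτχ, hτχ]
  rw [hJinv] at h1
  have h2 := congrArg (Algebra.norm ℚ) h1
  rw [map_mul, Algebra.norm_eq_of_algEquiv, hJK, ← Algebra.coe_norm_int] at h2
  have h3 : Algebra.norm ℚ ((Fintype.card F : ℕ) : K) = ((Fintype.card F : ℕ) : ℚ) ^ (p - 1) := by
    have := Algebra.norm_algebraMap (S := K) ((Fintype.card F : ℕ) : ℚ)
    rw [h7st_finrank (p := p)] at this
    rw [← this]
    congr 1
    simp
  rw [h3] at h2
  have h4 : (Algebra.norm ℤ (jacobiSum χ χ)) * (Algebra.norm ℤ (jacobiSum χ χ)) =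
      ((Fintype.card F : ℕ) : ℤ) ^ (p - 1) := by
    exact_mod_cast h2
  rw [Ideal.absNorm_span_singleton]
  have hodd : p - 1 = 2 * ((p - 1) / 2) := by
    have := hp.out.eq_two_or_odd
    have := hp.out.two_le
    omega
  have h5 : (Algebra.norm ℤ (jacobiSum χ χ)).natAbs * (Algebra.norm ℤ (jacobiSum χ χ)).natAbs =
      (Fintype.card F ^ ((p - 1) / 2)) * (Fintype.card F ^ ((p - 1) / 2)) := by
    have := congrArg Int.natAbs h4
    rw [Int.natAbs_mul, Int.natAbs_pow, Int.natAbs_natCast] at this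
    rw [this, ← pow_add, ← two_mul, ← hodd]
  exact Nat.mul_self_inj.mp h5

end Fermat.Agent.H7ST
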