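import Mathlib
import Fermat.Agent.CFT.Defs
import Fermat.Agent.CFT.ST.Norm

/-!
# T-CFT module ST (helper7): Stickelberger's theorem for Jacobi sums

For a prime `P` of `ℤ[ζ_p]` of prime norm `q ≠ p`, the ideal `∏_{0 < c < p/2} σ_c⁻¹ P` is
principal, generated by the Jacobi sum `J(χ, χ)` of the `p`-th power residue character `χ`
modulo `P`.
-/

open NumberField
open scoped Pointwise

namespace Fermat.Agent.H7ST

variable {p : ℕ} [hp : Fact p.Prime] {K : Type} [Field K] [NumberField K]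
  [IsCyclotomicExtension {p} ℚ K]

omit [NumberField K] [IsCyclotomicExtension {p} ℚ K] in
theorem h7st_card_exponentSet :
    (Stickelberger.exponentSet p).card = (p - 1) / 2 := by
  have hodd := hp.out.eq_two_or_odd
  have h2 := hp.out.two_le
  have : Stickelberger.exponentSet p = Finset.Ioc 0 ((p - 1) / 2) := by
    ext c
    rw [Stickelberger.mem_exponentSet, Finset.mem_Ioc]
    omega
  rw [this, Nat.card_Ioc, Nat.sub_zero]

omit hp [IsCyclotomicExtension {p} ℚ K] in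
theorem h7st_smul_toInteger [NeZero p] {ζ : K} (hζ : IsPrimitiveRoot ζ p) (σ : K ≃ₐ[ℚ] K) (c : ℕ)
    (hσ : σ ζ = ζ ^ c) :
    MulSemiringAction.toRingHom (K ≃ₐ[ℚ] K) (𝓞 K) σ hζ.toInteger = hζ.toInteger ^ c := by
  apply RingOfIntegers.coe_injective
  rw [MulSemiringAction.toRingHom_apply]
  change σ ζ = _
  rw [hσ]
  rfl

omit hp [IsCyclotomicExtension {p} ℚ K] in
theorem h7st_absNorm_smul (σ : K ≃ₐ[ℚ] K) (P : Ideal (𝓞 K)) :
    Ideal.absNorm (σ • P) = Ideal.absNorm P := by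
  rw [Ideal.absNorm_apply, Ideal.absNorm_apply, Submodule.cardQuot_apply,
    Submodule.cardQuot_apply]
  exact (Nat.card_congr (Ideal.quotientEquiv P (σ • P)
    (MulSemiringAction.toRingEquiv (K ≃ₐ[ℚ] K) (𝓞 K) σ) rfl).toEquiv).symm

/-- **Stickelberger for Jacobi sums**, with `Fact p.Prime`. -/
theorem h7st_main (hp2 : p ≠ 2) (P : Ideal (𝓞 K)) (hP : P.IsPrime)
    (hq : (Ideal.absNorm P).Prime) (hqp : Ideal.absNorm P ≠ p)
    (ζ : K) (s : ℕ → (K ≃ₐ[ℚ] K)) (hζ : IsPrimitiveRoot ζ p)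
    (hs : ∀ c ∈ Stickelberger.exponentSet p, s c ζ = ζ ^ c) :
    (∏ c ∈ Stickelberger.exponentSet p, ((s c)⁻¹ • P : Ideal (𝓞 K))).IsPrincipal := by
  classical
  have : NeZero p := ⟨hp.out.ne_zero⟩
  have hmax : P.IsMaximal := h7st_isMaximal hP hq
  let _ : Field (𝓞 K ⧸ P) := Ideal.Quotient.field P
  have hfin : Finite (𝓞 K ⧸ P) := (Ideal.absNorm_ne_zero_iff P).mp hq.ne_zero
  let _ : Fintype (𝓞 K ⧸ P) := Fintype.ofFinite _
  have hcard : Fintype.card (𝓞 K ⧸ P) = Ideal.absNorm P := by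
    rw [← Nat.card_eq_fintype_card, Ideal.absNorm_apply, Submodule.cardQuot_apply]
  have hzF : IsPrimitiveRoot (Ideal.Quotient.mk P hζ.toInteger) p :=
    h7st_isPrimitiveRoot_mk hP hq hqp hζ
  obtain ⟨χ, hχ1, hχ2, hχne, hχχ⟩ := h7st_exists_char (Ideal.Quotient.mk P)
    hζ.toInteger_isPrimitiveRoot.pow_eq_one hzF
  -- membership
  have hmem : ∀ c ∈ Stickelberger.exponentSet p, jacobiSum χ χ ∈ ((s c)⁻¹ • P : Ideal (𝓞 K)) := by
    intro c hc
    rw [Ideal.mem_inv_pointwise_smul_iff]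
    have hc' := Stickelberger.mem_exponentSet.mp hc
    have := h7st_sigma_jacobiSum_mem (Ideal.Quotient.mk P) hzF χ hχ1 hχ2
      (MulSemiringAction.toRingHom (K ≃ₐ[ℚ] K) (𝓞 K) (s c)) c
      (h7st_smul_toInteger hζ (s c) c (hs c hc)) hc'.1 hc'.2
    exact Ideal.Quotient.eq_zero_iff_mem.mp this
  -- the conjugates are distinct
  have hne : ∀ c ∈ Stickelberger.exponentSet p, ∀ c' ∈ Stickelberger.exponentSet p, c ≠ c' →
      ((s c)⁻¹ • P : Ideal (𝓞 K)) ≠ (s c')⁻¹ • P := by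
    intro c hc c' hc' hcc' heq
    have hc1 := Stickelberger.mem_exponentSet.mp hc
    have hc1' := Stickelberger.mem_exponentSet.mp hc'
    obtain ⟨n, hn⟩ := h7st_exists_int hq (hζ.toInteger ^ c)
    have h1 : hζ.toInteger - (n : 𝓞 K) ∈ ((s c)⁻¹ • P : Ideal (𝓞 K)) := by
      rw [Ideal.mem_inv_pointwise_smul_iff, ← MulSemiringAction.toRingHom_apply, map_sub,
        map_intCast, h7st_smul_toInteger hζ (s c) c (hs c hc)]
      exact hn
    rw [heq, Ideal.mem_inv_pointwise_smul_iff, ← MulSemiringAction.toRingHom_apply, map_sub,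
        map_intCast, h7st_smul_toInteger hζ (s c') c' (hs c' hc')] at h1
    have h2 : hζ.toInteger ^ c - hζ.toInteger ^ c' ∈ P := by
      have := P.sub_mem hn h1
      simpa using this
    have h3 : (Ideal.Quotient.mk P hζ.toInteger) ^ c = (Ideal.Quotient.mk P hζ.toInteger) ^ c' := by
      rw [← map_pow, ← map_pow, ← sub_eq_zero, ← map_sub]
      exact Ideal.Quotient.eq_zero_iff_mem.mpr h2
    exact hcc' (hzF.pow_inj (by omega) (by omega) h3)
  have hmaxc : ∀ c, ((s c)⁻¹ • P : Ideal (𝓞 K)).IsMaximal := by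
    intro c
    have h1 : ((s c)⁻¹ • P : Ideal (𝓞 K)).IsPrime := inferInstance
    refine h1.isMaximal ?_
    intro h0
    have := h7st_absNorm_smul (s c)⁻¹ P
    rw [h0, Ideal.absNorm_bot] at this
    exact hq.ne_zero this.symm
  have hcop : (Stickelberger.exponentSet p : Set ℕ).Pairwise
      (Function.onFun IsCoprime fun c => ((s c)⁻¹ • P : Ideal (𝓞 K))) := by
    intro c hc c' hc' hcc'
    have := hmaxc c
    have := hmaxc c'
    exact Ideal.isCoprime_of_isMaximal (hne c hc c' hc' hcc')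
  have hdvd : (∏ c ∈ Stickelberger.exponentSet p, ((s c)⁻¹ • P : Ideal (𝓞 K))) ∣
      Ideal.span {jacobiSum χ χ} :=
    Finset.prod_dvd_of_coprime hcop fun c hc =>
      Ideal.dvd_iff_le.mpr ((Ideal.span_singleton_le_iff_mem _).mpr (hmem c hc))
  -- norms
  have hn1 : Ideal.absNorm (∏ c ∈ Stickelberger.exponentSet p, ((s c)⁻¹ • P : Ideal (𝓞 K))) =
      Ideal.absNorm P ^ ((p - 1) / 2) := by
    rw [map_prod, Finset.prod_congr rfl (fun c _ => h7st_absNorm_smul (s c)⁻¹ P),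
      Finset.prod_const, h7st_card_exponentSet]
  have hn2 := h7st_absNorm_jacobiSum hp2 hζ χ hχ2 hχne (hχχ hp2)
  rw [hcard] at hn2
  obtain ⟨M, hM⟩ := hdvd
  have hM1 : Ideal.absNorm M = 1 := by
    have := congrArg Ideal.absNorm hM
    rw [map_mul, hn1, hn2] at this
    have hpos : 0 < Ideal.absNorm P ^ ((p - 1) / 2) := pow_pos hq.pos _
    exact (Nat.eq_of_mul_eq_mul_left hpos (by rw [mul_one]; exact this)).symm
  have hMtop : M = ⊤ := Ideal.absNorm_eq_one_iff.mp hM1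
  refine ⟨⟨jacobiSum χ χ, ?_⟩⟩
  rw [hMtop, Ideal.mul_top] at hM
  exact hM.symm

/-- **(ST)** `H14CFT.StickelbergerJacobi p` holds for every `p`. -/
theorem h7st_stickelberger (p : ℕ) : H14CFT.StickelbergerJacobi p := by
  intro K _ _ _ hp hp2 P hP hq hqp ζ s hζ hs
  have : Fact p.Prime := ⟨hp⟩
  exact h7st_main hp2 P hP hq hqp ζ s hζ hs

end Fermat.Agent.H7ST
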